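/-
S17 (Mordell-Weil), package H, seat ABS (helper77): the product formula for `ℚ` in logarithmic form,
`log |r| + ∑ᶠ p, log |r|_p = 0` for `r ≠ 0`, with the `p`-adic norms `padicNorm p`.
-/
import Mathlib

set_option autoImplicit false
set_option linter.unusedSectionVars false
set_option linter.style.haveILetI false

namespace Fermat.Agent.S17.Abs

/-- The logarithm of the `p`-adic norm of a rational number. -/
noncomputable def logPadic (p : Nat.Primes) (r : ℚ) : ℝ :=
  Real.log ((padicNorm p.1 r : ℚ) : ℝ)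

theorem logPadic_mul (p : Nat.Primes) {r s : ℚ} (hr : r ≠ 0) (hs : s ≠ 0) :
    logPadic p (r * s) = logPadic p r + logPadic p s := by
  haveI : Fact p.1.Prime := ⟨p.2⟩
  unfold logPadic
  rw [padicNorm.mul, Rat.cast_mul, Real.log_mul]
  · exact_mod_cast (padicNorm.nonzero hr)
  · exact_mod_cast (padicNorm.nonzero hs)

theorem logPadic_eq_zero_of_not_dvd (p : Nat.Primes) {r : ℚ} (hnum : ¬ (p.1 : ℤ) ∣ r.num)
    (hden : ¬ p.1 ∣ r.den) : logPadic p r = 0 := by
  haveI : Fact p.1.Prime := ⟨p.2⟩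
  unfold logPadic
  have h1 : padicNorm p.1 r = 1 := by
    have hr : r = (r.num : ℚ) / (r.den : ℚ) := (Rat.num_div_den r).symm
    rw [hr, padicNorm.div, (padicNorm.int_eq_one_iff _).mpr hnum]
    have : padicNorm p.1 ((r.den : ℕ) : ℚ) = 1 := (padicNorm.nat_eq_one_iff _).mpr hden
    rw [this, div_one]
  rw [h1, Rat.cast_one, Real.log_one]

/-- `log |r|_p ≠ 0` only for finitely many primes. -/
theorem finite_support_logPadic {r : ℚ} (hr : r ≠ 0) :
    (Function.support fun p : Nat.Primes => logPadic p r).Finite := by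
  have hm : r.num.natAbs * r.den ≠ 0 :=
    Nat.mul_ne_zero (Int.natAbs_ne_zero.mpr (Rat.num_ne_zero.mpr hr)) r.den_nz
  have hfin : {n : ℕ | n ∣ r.num.natAbs * r.den}.Finite :=
    Set.Finite.subset (Set.finite_Iic (r.num.natAbs * r.den))
      fun n hn => Nat.le_of_dvd (Nat.pos_of_ne_zero hm) hn
  refine Set.Finite.subset (hfin.preimage (f := fun p : Nat.Primes => p.1)
    (fun a _ b _ h => Subtype.ext h)) ?_
  intro p hp
  rw [Function.mem_support] at hp
  show p.1 ∣ r.num.natAbs * r.den
  by_contra hnd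
  apply hp
  refine logPadic_eq_zero_of_not_dvd p ?_ ?_
  · intro h
    exact hnd (Dvd.dvd.mul_right (Int.natCast_dvd.mp h) _)
  · intro h
    exact hnd (Dvd.dvd.mul_left h _)

/-- The logarithmic "product": `log |r| + ∑ᶠ p, log |r|_p`. -/
noncomputable def logProd (r : ℚ) : ℝ :=
  Real.log |(r : ℝ)| + ∑ᶠ p : Nat.Primes, logPadic p r

theorem logProd_mul {r s : ℚ} (hr : r ≠ 0) (hs : s ≠ 0) :
    logProd (r * s) = logProd r + logProd s := by
  unfold logProd
  have h1 : (fun p : Nat.Primes => logPadic p (r * s)) =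
      fun p => logPadic p r + logPadic p s := by
    funext p
    exact logPadic_mul p hr hs
  rw [h1, finsum_add_distrib (finite_support_logPadic hr) (finite_support_logPadic hs),
    Rat.cast_mul, abs_mul, Real.log_mul]
  · ring
  · exact abs_ne_zero.mpr (by exact_mod_cast hr)
  · exact abs_ne_zero.mpr (by exact_mod_cast hs)

theorem logProd_one : logProd 1 = 0 := by
  have h := logProd_mul (r := 1) (s := 1) one_ne_zero one_ne_zero
  rw [mul_one] at h
  linarith

theorem logProd_neg_one : logProd (-1) = 0 := by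
  have h := logProd_mul (r := -1) (s := -1) (by norm_num) (by norm_num)
  rw [neg_mul_neg, mul_one, logProd_one] at h
  linarith

theorem logProd_prime (q : ℕ) (hq : q.Prime) : logProd (q : ℚ) = 0 := by
  unfold logProd
  have hsingle : ∑ᶠ p : Nat.Primes, logPadic p (q : ℚ) = logPadic ⟨q, hq⟩ (q : ℚ) := by
    refine finsum_eq_single _ (⟨q, hq⟩ : Nat.Primes) fun p hp => ?_
    haveI : Fact p.1.Prime := ⟨p.2⟩
    refine logPadic_eq_zero_of_not_dvd p ?_ ?_
    · rw [Rat.num_natCast]
      intro h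
      have h2 : p.1 ∣ q := Int.natCast_dvd_natCast.mp h
      exact hp (Subtype.ext ((Nat.prime_dvd_prime_iff_eq p.2 hq).mp h2))
    · rw [Rat.den_natCast]
      exact fun h => p.2.one_lt.ne' (Nat.dvd_one.mp h)
  rw [hsingle]
  unfold logPadic
  rw [padicNorm.padicNorm_p hq.one_lt]
  have hq0 : (0 : ℝ) < q := by exact_mod_cast hq.pos
  rw [Rat.cast_natCast, abs_of_pos hq0, Rat.cast_inv, Rat.cast_natCast, Real.log_inv]
  ring

theorem logProd_natCast (n : ℕ) (hn : n ≠ 0) : logProd (n : ℚ) = 0 := by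
  induction n using Nat.recOnMul with
  | zero => exact absurd rfl hn
  | one => rw [Nat.cast_one]; exact logProd_one
  | prime p hp => exact logProd_prime p hp
  | mul a b ha hb =>
    have ha0 : a ≠ 0 := fun h => hn (by rw [h, zero_mul])
    have hb0 : b ≠ 0 := fun h => hn (by rw [h, mul_zero])
    rw [Nat.cast_mul, logProd_mul (by exact_mod_cast ha0) (by exact_mod_cast hb0), ha ha0,
      hb hb0, add_zero]

theorem logProd_intCast (a : ℤ) (ha : a ≠ 0) : logProd (a : ℚ) = 0 := by
  rcases Int.natAbs_eq a with h | h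
  · rw [h, Int.cast_natCast]
    exact logProd_natCast _ (Int.natAbs_ne_zero.mpr ha)
  · have hn : (a.natAbs : ℚ) ≠ 0 := by exact_mod_cast Int.natAbs_ne_zero.mpr ha
    have e : (a : ℚ) = (-1) * (a.natAbs : ℚ) := by
      have h' : (a : ℚ) = ((-(a.natAbs : ℤ) : ℤ) : ℚ) := by rw [← h]
      rw [h', Int.cast_neg, Int.cast_natCast]
      ring
    rw [e, logProd_mul (by norm_num) hn, logProd_neg_one,
      logProd_natCast _ (Int.natAbs_ne_zero.mpr ha), add_zero]

/-- **Product formula for `ℚ`** (logarithmic form). -/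
theorem logProd_eq_zero (r : ℚ) (hr : r ≠ 0) : logProd r = 0 := by
  have hden : (r.den : ℚ) ≠ 0 := by exact_mod_cast r.den_nz
  have h := logProd_mul hr hden
  rw [Rat.mul_den_eq_num, logProd_intCast _ (Rat.num_ne_zero.mpr hr),
    logProd_natCast _ r.den_nz, add_zero] at h
  exact h.symm

/-- **Product formula for `ℚ`**, unfolded. -/
theorem rat_product_formula (r : ℚ) (hr : r ≠ 0) :
    Real.log |(r : ℝ)| + ∑ᶠ p : Nat.Primes, Real.log ((padicNorm p.1 r : ℚ) : ℝ) = 0 :=
  logProd_eq_zero r hr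

end Fermat.Agent.S17.Abs
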