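/-
S17 (Mordell-Weil), package H, seat ABS (helper77): absolute values on `ℚ̄ = AlgebraicClosure ℚ`.

* `absInf` : the archimedean absolute value (through a fixed embedding `ℚ̄ → ℂ`);
* `absFin p` : the `p`-adic absolute value (through the Prelude's `padicEmbedding p : ℚ̄ → PadicAlgCl p`);
  `absAt (p : Nat.Primes)` is the same, indexed by `Nat.Primes`;
* restriction to `ℚ`: `absInf_algebraMap`, `absFin_algebraMap` (`= |r|`, `= padicNorm p r`);
* `absFin_add_le_max` (nonarchimedean), `absFin_le_one_of_root` (roots of monic polynomials with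
  `p`-integral coefficients);
* `conjRoots a` : the Galois conjugates of `a` (roots of `minpoly ℚ a`), `prod_conjRoots`;
* `finite_absAt_ne_one` : `|a|_p = 1` for almost all `p` (`a ≠ 0`);
* `product_formula` : `∑_{a' conj of a} log |a'|_∞ + ∑ᶠ p, ∑_{a'} log |a'|_p = 0` (`a ≠ 0`).
-/
import Mathlib
import Fermat.Prelude.Def_GaloisRep_CompletionBridge
import Fermat.Agent.S17.Abs.Rat

set_option autoImplicit false
set_option linter.unusedSectionVars false
set_option linter.style.haveILetI false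

open Polynomial

namespace Fermat.Agent.S17.Abs

local notation "ℚbar" => AlgebraicClosure ℚ

/-- A fixed embedding `ℚ̄ → ℂ`. -/
noncomputable def complexEmbedding : ℚbar →ₐ[ℚ] ℂ :=
  haveI : Algebra.IsAlgebraic ℚ (AlgebraicClosure ℚ) := AlgebraicClosure.isAlgebraic ℚ
  IsAlgClosed.lift

/-- The archimedean absolute value on `ℚ̄`. -/
noncomputable def absInf : AbsoluteValue ℚbar ℝ where
  toFun a := ‖complexEmbedding a‖
  map_mul' a b := by rw [map_mul, norm_mul]
  nonneg' a := norm_nonneg _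
  eq_zero' a := by rw [norm_eq_zero, map_eq_zero]
  add_le' a b := by rw [map_add]; exact norm_add_le _ _

/-- The `p`-adic absolute value on `ℚ̄`. -/
noncomputable def absFin (p : ℕ) [Fact p.Prime] : AbsoluteValue ℚbar ℝ where
  toFun a := ‖padicEmbedding p a‖
  map_mul' a b := by rw [map_mul, norm_mul]
  nonneg' a := norm_nonneg _
  eq_zero' a := by rw [norm_eq_zero, map_eq_zero]
  add_le' a b := by rw [map_add]; exact norm_add_le _ _

/-- The `p`-adic absolute value on `ℚ̄`, indexed by `Nat.Primes`. -/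
noncomputable def absAt (p : Nat.Primes) : AbsoluteValue ℚbar ℝ :=
  haveI : Fact p.1.Prime := ⟨p.2⟩
  absFin p.1

theorem absInf_apply (a : ℚbar) : absInf a = ‖complexEmbedding a‖ := rfl

theorem absFin_apply (p : ℕ) [Fact p.Prime] (a : ℚbar) : absFin p a = ‖padicEmbedding p a‖ := rfl

theorem absAt_apply (p : Nat.Primes) (a : ℚbar) :
    absAt p a = (haveI : Fact p.1.Prime := ⟨p.2⟩; absFin p.1 a) := rfl

/-! ### Restriction to `ℚ` -/

theorem absInf_algebraMap (r : ℚ) : absInf (algebraMap ℚ ℚbar r) = |(r : ℝ)| := by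
  rw [absInf_apply, AlgHom.commutes, eq_ratCast, Complex.norm_ratCast]

theorem absFin_algebraMap (p : ℕ) [Fact p.Prime] (r : ℚ) :
    absFin p (algebraMap ℚ ℚbar r) = ((padicNorm p r : ℚ) : ℝ) := by
  rw [absFin_apply, AlgHom.commutes, ← Padic.eq_padicNorm, ← PadicAlgCl.norm_extends p (r : ℚ_[p])]
  congr 1

theorem absAt_algebraMap (p : Nat.Primes) (r : ℚ) :
    absAt p (algebraMap ℚ ℚbar r) = ((padicNorm p.1 r : ℚ) : ℝ) := by
  haveI : Fact p.1.Prime := ⟨p.2⟩
  exact absFin_algebraMap p.1 r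

/-! ### The nonarchimedean property -/

theorem absFin_add_le_max (p : ℕ) [Fact p.Prime] (a b : ℚbar) :
    absFin p (a + b) ≤ max (absFin p a) (absFin p b) := by
  rw [absFin_apply, absFin_apply, absFin_apply, map_add]
  exact IsUltrametricDist.norm_add_le_max _ _

theorem absAt_add_le_max (p : Nat.Primes) (a b : ℚbar) :
    absAt p (a + b) ≤ max (absAt p a) (absAt p b) := by
  haveI : Fact p.1.Prime := ⟨p.2⟩
  exact absFin_add_le_max p.1 a b

theorem isNonarchimedean_absAt (p : Nat.Primes) : IsNonarchimedean (absAt p) :=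
  fun a b => absAt_add_le_max p a b

/-- A root of a monic polynomial with coefficients of norm `≤ 1` in an ultrametric normed field
has norm `≤ 1`. -/
theorem norm_le_one_of_monic_root {K : Type*} [NormedField K] [IsUltrametricDist K]
    {f : K[X]} (hf : f.Monic) (hc : ∀ i, ‖f.coeff i‖ ≤ 1) {b : K} (hb : f.eval b = 0) :
    ‖b‖ ≤ 1 := by
  by_contra hlt
  rw [not_le] at hlt
  have hn : f.natDegree ≠ 0 := by
    intro h0
    have h1 : f = 1 := hf.natDegree_eq_zero.mp h0
    rw [h1, eval_one] at hb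
    exact one_ne_zero hb
  have hsum : b ^ f.natDegree = - ∑ i ∈ Finset.range f.natDegree, f.coeff i * b ^ i := by
    have h := hb
    rw [eval_eq_sum_range, Finset.sum_range_succ, hf.coeff_natDegree, one_mul] at h
    rw [eq_neg_iff_add_eq_zero, add_comm]
    exact h
  have hne : (Finset.range f.natDegree).Nonempty :=
    Finset.nonempty_range_iff.mpr hn
  obtain ⟨i, hi, hle⟩ := IsUltrametricDist.exists_norm_finsetSum_le_of_nonempty hne
    (fun i => f.coeff i * b ^ i)
  have h1 : ‖b‖ ^ f.natDegree ≤ ‖f.coeff i * b ^ i‖ := by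
    rw [← norm_pow, hsum, norm_neg]
    exact hle
  have h2 : ‖f.coeff i * b ^ i‖ ≤ ‖b‖ ^ i := by
    rw [norm_mul, norm_pow]
    exact mul_le_of_le_one_left (pow_nonneg (norm_nonneg _) _) (hc i)
  have h3 : ‖b‖ ^ i < ‖b‖ ^ f.natDegree :=
    pow_lt_pow_right₀ hlt (Finset.mem_range.mp hi)
  exact absurd (h1.trans h2) (not_le.mpr h3)

/-- A root in `ℚ̄` of a monic rational polynomial with `p`-integral coefficients has
`|a|_p ≤ 1`. -/
theorem absFin_le_one_of_root (p : ℕ) [Fact p.Prime] {f : ℚ[X]} (hf : f.Monic)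
    (hc : ∀ i, padicNorm p (f.coeff i) ≤ 1) {a : ℚbar} (ha : aeval a f = 0) :
    absFin p a ≤ 1 := by
  rw [absFin_apply]
  refine norm_le_one_of_monic_root (f := f.map (algebraMap ℚ (PadicAlgCl p)))
    (hf.map _) (fun i => ?_) ?_
  · rw [coeff_map]
    have h := absFin_algebraMap p (f.coeff i)
    rw [absFin_apply, AlgHom.commutes] at h
    rw [h]
    exact_mod_cast hc i
  · rw [eval_map_algebraMap, aeval_algHom_apply, ha, map_zero]

/-! ### Galois conjugates -/

/-- The Galois conjugates of `a`: the roots of `minpoly ℚ a` in `ℚ̄`. -/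
noncomputable def conjRoots (a : ℚbar) : Multiset ℚbar :=
  (minpoly ℚ a).aroots ℚbar

theorem isIntegral_qbar (a : ℚbar) : IsIntegral ℚ a :=
  haveI : Algebra.IsAlgebraic ℚ (AlgebraicClosure ℚ) := AlgebraicClosure.isAlgebraic ℚ
  Algebra.IsIntegral.isIntegral a

theorem mem_conjRoots {a b : ℚbar} : b ∈ conjRoots a ↔ aeval b (minpoly ℚ a) = 0 := by
  unfold conjRoots
  rw [mem_aroots]
  exact ⟨fun h => h.2, fun h => ⟨minpoly.ne_zero (isIntegral_qbar a), h⟩⟩

theorem self_mem_conjRoots (a : ℚbar) : a ∈ conjRoots a :=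
  mem_conjRoots.mpr (minpoly.aeval ℚ a)

/-- Vieta: the product of the conjugates is `± ` the constant coefficient of the minimal
polynomial. -/
theorem prod_conjRoots (a : ℚbar) :
    (conjRoots a).prod =
      (-1) ^ (minpoly ℚ a).natDegree * algebraMap ℚ ℚbar ((minpoly ℚ a).coeff 0) := by
  have hspl : ((minpoly ℚ a).map (algebraMap ℚ ℚbar)).Splits := IsAlgClosed.splits _
  have hm : ((minpoly ℚ a).map (algebraMap ℚ ℚbar)).Monic :=
    (minpoly.monic (isIntegral_qbar a)).map _
  have h := hspl.coeff_zero_eq_prod_roots_of_monic hm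
  rw [coeff_map, natDegree_map] at h
  unfold conjRoots aroots
  rw [h, ← mul_assoc, ← pow_add, ← two_mul, pow_mul, neg_one_sq, one_pow, one_mul]

theorem coeff_zero_minpoly_ne_zero {a : ℚbar} (ha : a ≠ 0) : (minpoly ℚ a).coeff 0 ≠ 0 :=
  minpoly.coeff_zero_ne_zero (isIntegral_qbar a) ha

theorem ne_zero_of_mem_conjRoots {a b : ℚbar} (ha : a ≠ 0) (hb : b ∈ conjRoots a) : b ≠ 0 := by
  rintro rfl
  have h := mem_conjRoots.mp hb
  rw [← coeff_zero_eq_aeval_zero', map_eq_zero] at h
  exact coeff_zero_minpoly_ne_zero ha h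

/-- The product of an absolute value over the conjugates. -/
theorem prod_abv_conjRoots (v : AbsoluteValue ℚbar ℝ) (a : ℚbar) :
    ((conjRoots a).map v).prod = v (algebraMap ℚ ℚbar ((minpoly ℚ a).coeff 0)) := by
  have h : ((conjRoots a).map v).prod = v (conjRoots a).prod :=
    (map_multiset_prod v.toMonoidHom (conjRoots a)).symm
  rw [h, prod_conjRoots, map_mul, map_pow, AbsoluteValue.map_neg, map_one, one_pow, one_mul]

/-- The sum of `log |a'|_v` over the conjugates. -/
theorem sum_log_abv_conjRoots (v : AbsoluteValue ℚbar ℝ) {a : ℚbar} (ha : a ≠ 0) :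
    ((conjRoots a).map fun b => Real.log (v b)).sum =
      Real.log (v (algebraMap ℚ ℚbar ((minpoly ℚ a).coeff 0))) := by
  rw [← prod_abv_conjRoots v a, Real.log_multiset_prod, Multiset.map_map]
  · rfl
  · intro x hx
    rw [Multiset.mem_map] at hx
    obtain ⟨b, hb, rfl⟩ := hx
    exact (v.ne_zero_iff.mpr (ne_zero_of_mem_conjRoots ha hb))

/-! ### Almost all absolute values are `1` -/

/-- The primes that are bad for a nonzero polynomial: those dividing a denominator or a
numerator of a nonzero coefficient. -/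
theorem finite_bad_primes (f : ℚ[X]) :
    {p : Nat.Primes | ∃ i, f.coeff i ≠ 0 ∧ logPadic p (f.coeff i) ≠ 0}.Finite := by
  have h : {p : Nat.Primes | ∃ i, f.coeff i ≠ 0 ∧ logPadic p (f.coeff i) ≠ 0} ⊆
      ⋃ i ∈ f.support, Function.support fun p : Nat.Primes => logPadic p (f.coeff i) := by
    rintro p ⟨i, hi, hp⟩
    simp only [Set.mem_iUnion]
    exact ⟨i, mem_support_iff.mpr hi, hp⟩
  refine Set.Finite.subset ?_ h
  exact Set.Finite.biUnion f.support.finite_toSet fun i hi =>
    finite_support_logPadic (mem_support_iff.mp hi)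

theorem padicNorm_eq_one_of_logPadic_eq_zero (p : Nat.Primes) {r : ℚ} (hr : r ≠ 0)
    (h : logPadic p r = 0) : padicNorm p.1 r = 1 := by
  haveI : Fact p.1.Prime := ⟨p.2⟩
  unfold logPadic at h
  have hpos : (0 : ℝ) < ((padicNorm p.1 r : ℚ) : ℝ) := by
    exact_mod_cast lt_of_le_of_ne (padicNorm.nonneg r) (Ne.symm (padicNorm.nonzero hr))
  have := Real.eq_one_of_pos_of_log_eq_zero hpos h
  exact_mod_cast this

/-- Outside the bad primes of `minpoly ℚ a`, all conjugates of `a` have absolute value `1`. -/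
theorem absAt_eq_one_of_good {a : ℚbar} (ha : a ≠ 0) (p : Nat.Primes)
    (hp : p ∉ {p : Nat.Primes | ∃ i, (minpoly ℚ a).coeff i ≠ 0 ∧
      logPadic p ((minpoly ℚ a).coeff i) ≠ 0}) :
    ∀ b ∈ conjRoots a, absAt p b = 1 := by
  haveI : Fact p.1.Prime := ⟨p.2⟩
  have hgood : ∀ i, (minpoly ℚ a).coeff i ≠ 0 → padicNorm p.1 ((minpoly ℚ a).coeff i) = 1 := by
    intro i hi
    refine padicNorm_eq_one_of_logPadic_eq_zero p hi ?_
    by_contra hne
    exact hp ⟨i, hi, hne⟩
  have hc : ∀ i, padicNorm p.1 ((minpoly ℚ a).coeff i) ≤ 1 := by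
    intro i
    by_cases hi : (minpoly ℚ a).coeff i = 0
    · rw [hi, padicNorm.zero]; exact zero_le_one
    · exact (hgood i hi).le
  have hle : ∀ b ∈ conjRoots a, absAt p b ≤ 1 := fun b hb =>
    absFin_le_one_of_root p.1 (minpoly.monic (isIntegral_qbar a)) hc (mem_conjRoots.mp hb)
  have hprod : ((conjRoots a).map (absAt p)).prod = 1 := by
    rw [prod_abv_conjRoots, absAt_algebraMap, hgood 0 (coeff_zero_minpoly_ne_zero ha),
      Rat.cast_one]
  -- a product of numbers in `(0, 1]` equal to `1` has all factors equal to `1`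
  intro b hb
  by_contra hne
  have hlt : absAt p b < 1 := lt_of_le_of_ne (hle b hb) hne
  obtain ⟨t, ht⟩ := Multiset.exists_cons_of_mem hb
  have hle' : ∀ c ∈ t, absAt p c ≤ 1 := fun c hc' =>
    hle c (by rw [ht]; exact Multiset.mem_cons_of_mem hc')
  have h1 : (t.map (absAt p)).prod ≤ 1 := by
    refine Multiset.prod_induction (fun x : ℝ => 0 ≤ x ∧ x ≤ 1) _ ?_ ?_ ?_ |>.2
    · rintro x y ⟨hx0, hx1⟩ ⟨hy0, hy1⟩
      exact ⟨mul_nonneg hx0 hy0, mul_le_one₀ hx1 hy0 hy1⟩
    · exact ⟨zero_le_one, le_rfl⟩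
    · intro x hx
      obtain ⟨c, hc', rfl⟩ := Multiset.mem_map.mp hx
      exact ⟨(absAt p).nonneg c, hle' c hc'⟩
  have h0 : 0 ≤ (t.map (absAt p)).prod := by
    refine Multiset.prod_nonneg fun x hx => ?_
    obtain ⟨c, -, rfl⟩ := Multiset.mem_map.mp hx
    exact (absAt p).nonneg c
  rw [ht, Multiset.map_cons, Multiset.prod_cons] at hprod
  have : absAt p b * (t.map (absAt p)).prod < 1 := by
    calc absAt p b * (t.map (absAt p)).prod ≤ absAt p b * 1 :=
          mul_le_mul_of_nonneg_left h1 ((absAt p).nonneg b)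
      _ = absAt p b := mul_one _
      _ < 1 := hlt
  exact absurd hprod this.ne

/-- `|a|_p = 1` for almost all primes `p`, uniformly over the conjugates of `a`. -/
theorem finite_absAt_conj_ne_one {a : ℚbar} (ha : a ≠ 0) :
    {p : Nat.Primes | ∃ b ∈ conjRoots a, absAt p b ≠ 1}.Finite := by
  refine Set.Finite.subset (finite_bad_primes (minpoly ℚ a)) ?_
  rintro p ⟨b, hb, hne⟩
  by_contra hp
  exact hne (absAt_eq_one_of_good ha p hp b hb)

/-- `|a|_p = 1` for almost all primes `p`. -/
theorem finite_absAt_ne_one {a : ℚbar} (ha : a ≠ 0) :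
    {p : Nat.Primes | absAt p a ≠ 1}.Finite :=
  Set.Finite.subset (finite_absAt_conj_ne_one ha) fun _ hp => ⟨a, self_mem_conjRoots a, hp⟩

/-! ### The product formula over Galois orbits -/

/-- **Product formula** over the Galois orbit of `a ≠ 0`. -/
theorem product_formula {a : ℚbar} (ha : a ≠ 0) :
    ((conjRoots a).map fun b => Real.log (absInf b)).sum +
      ∑ᶠ p : Nat.Primes, ((conjRoots a).map fun b => Real.log (absAt p b)).sum = 0 := by
  have hc := coeff_zero_minpoly_ne_zero ha
  rw [sum_log_abv_conjRoots absInf ha, absInf_algebraMap]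
  have h : (fun p : Nat.Primes => ((conjRoots a).map fun b => Real.log (absAt p b)).sum) =
      fun p => logPadic p ((minpoly ℚ a).coeff 0) := by
    funext p
    rw [sum_log_abv_conjRoots (absAt p) ha, absAt_algebraMap]
    rfl
  rw [h]
  exact logProd_eq_zero _ hc

end Fermat.Agent.S17.Abs
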