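/-
S17 (Mordell-Weil), package H, seat ABS (helper65): the system of absolute values `absSys : AbsSys`
on `ℚ̄`, built on helper77's library `S17/Abs/{Rat,Basic}.lean`.

* places: `Option Nat.Primes` (`none` = the archimedean place);
* product formula on `ℚ`, finiteness, Northcott on `ℚ`
  (the height of `a ∈ ℚ` is at least `log max(|num a|, den a)`);
* `conjRoots a` is the Galois orbit of `a` (no repetitions, Galois invariant).
-/
import Mathlib
import Fermat.Agent.S17.Abs.Basic
import Fermat.Agent.S17.H.Defs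

set_option autoImplicit false
set_option linter.unusedSectionVars false
set_option linter.style.haveILetI false

noncomputable section

namespace Fermat.Agent.S17

open Fermat.Agent.S17.Abs

/-- The absolute value of `ℚ̄` at the place `v` (`none` = archimedean). -/
def absOpt : Option Nat.Primes → AbsoluteValue Qbar ℝ
  | none => Abs.absInf
  | some p => Abs.absAt p

@[simp] lemma absOpt_none : absOpt none = Abs.absInf := rfl
@[simp] lemma absOpt_some (p : Nat.Primes) : absOpt (some p) = Abs.absAt p := rfl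

lemma absOpt_nonarch (v : Option Nat.Primes) (hv : v ∉ ({none} : Finset (Option Nat.Primes))) :
    IsNonarchimedean (absOpt v) := by
  cases v with
  | none => exact absurd (Finset.mem_singleton_self _) hv
  | some p => exact Abs.isNonarchimedean_absAt p

lemma finite_absOpt_ne_one (a : Qbar) (ha : a ≠ 0) : {v | absOpt v a ≠ 1}.Finite := by
  have h := Abs.finite_absAt_ne_one ha
  apply ((h.image some).insert none).subset
  intro v hv
  cases v with
  | none => exact Set.mem_insert _ _
  | some p => exact Set.mem_insert_of_mem _ ⟨p, hv, rfl⟩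

/-- finite support of `v ↦ F (|a|_v)` when `F 1 = 0` -/
lemma finite_support_comp_absOpt (F : ℝ → ℝ) (hF : F 1 = 0) (a : Qbar) (ha : a ≠ 0) :
    (Function.support fun v => F (absOpt v a)).Finite := by
  apply (finite_absOpt_ne_one a ha).subset
  intro v hv h1
  rw [Function.mem_support] at hv
  apply hv
  rw [h1, hF]

lemma finite_support_comp_absAt (F : ℝ → ℝ) (hF : F 1 = 0) (a : Qbar) (ha : a ≠ 0) :
    (Function.support fun p : Nat.Primes => F (Abs.absAt p a)).Finite := by
  apply (Abs.finite_absAt_ne_one ha).subset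
  intro v hv h1
  rw [Function.mem_support] at hv
  apply hv
  rw [h1, hF]

/-- splitting a sum over all places -/
lemma finsum_absOpt (F : ℝ → ℝ) (hF : F 1 = 0) (a : Qbar) (ha : a ≠ 0) :
    ∑ᶠ v, F (absOpt v a) = F (Abs.absInf a) + ∑ᶠ p : Nat.Primes, F (Abs.absAt p a) := by
  have h := finsum_option (f := fun v => F (absOpt v a))
    (finite_support_comp_absAt F hF a ha)
  exact h

lemma algebraMap_ne_zero {a : ℚ} (ha : a ≠ 0) : algebraMap ℚ Qbar a ≠ 0 :=
  (map_ne_zero_iff _ (algebraMap ℚ Qbar).injective).2 ha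

/-- **Product formula on `ℚ`.** -/
theorem absOpt_product_formula (a : ℚ) (ha : a ≠ 0) :
    ∑ᶠ v, Real.log (absOpt v (algebraMap ℚ Qbar a)) = 0 := by
  rw [finsum_absOpt Real.log Real.log_one _ (algebraMap_ne_zero ha), Abs.absInf_algebraMap]
  have h : (fun p : Nat.Primes => Real.log (Abs.absAt p (algebraMap ℚ Qbar a)))
      = fun p : Nat.Primes => Real.log ((padicNorm p.1 a : ℚ) : ℝ) := by
    funext p
    rw [Abs.absAt_algebraMap]
  rw [h]
  exact Abs.rat_product_formula a ha

/-! ### Northcott on `ℚ` -/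

/-- the local height function `log max(1, ·)` -/
def logPlus (x : ℝ) : ℝ := Real.log (max 1 x)

lemma logPlus_one : logPlus 1 = 0 := by simp [logPlus]

lemma logPlus_nonneg (x : ℝ) : 0 ≤ logPlus x := Real.log_nonneg (le_max_left _ _)

lemma log_le_logPlus {x : ℝ} (hx : 0 < x) : Real.log x ≤ logPlus x :=
  Real.log_le_log hx (le_max_right _ _)

/-- the height of a rational number -/
def ratHeight (a : ℚ) : ℝ := ∑ᶠ v, logPlus (absOpt v (algebraMap ℚ Qbar a))

lemma ratHeight_eq (a : ℚ) (ha : a ≠ 0) :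
    ratHeight a = logPlus |(a : ℝ)|
      + ∑ᶠ p : Nat.Primes, logPlus ((padicNorm p.1 a : ℚ) : ℝ) := by
  unfold ratHeight
  rw [finsum_absOpt logPlus logPlus_one _ (algebraMap_ne_zero ha), Abs.absInf_algebraMap]
  congr 1
  apply finsum_congr
  intro p
  rw [Abs.absAt_algebraMap]

lemma finite_support_logPlus_padic (a : ℚ) (ha : a ≠ 0) :
    (Function.support fun p : Nat.Primes => logPlus ((padicNorm p.1 a : ℚ) : ℝ)).Finite := by
  have h := finite_support_comp_absAt logPlus logPlus_one _ (algebraMap_ne_zero ha)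
  have e : (fun p : Nat.Primes => logPlus (Abs.absAt p (algebraMap ℚ Qbar a)))
      = fun p : Nat.Primes => logPlus ((padicNorm p.1 a : ℚ) : ℝ) := by
    funext p
    rw [Abs.absAt_algebraMap]
  rwa [e] at h

/-- local comparison: `log⁺ |a|_p ≥ - log |den a|_p`. -/
lemma neg_log_den_le (a : ℚ) (p : Nat.Primes) :
    -Real.log ((padicNorm p.1 (a.den : ℚ) : ℚ) : ℝ) ≤ logPlus ((padicNorm p.1 a : ℚ) : ℝ) := by
  haveI : Fact p.1.Prime := ⟨p.2⟩
  by_cases hd : p.1 ∣ a.den
  · -- then `p ∤ num`
    have hnum : ¬ (p.1 : ℤ) ∣ a.num := by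
      intro h
      have h1 : p.1 ∣ a.num.natAbs := Int.natCast_dvd.1 h
      have hcop : Nat.Coprime a.num.natAbs a.den := a.reduced
      have := Nat.dvd_gcd h1 hd
      rw [hcop.gcd_eq_one] at this
      exact p.2.one_lt.ne' (Nat.dvd_one.1 this)
    have h3 : padicNorm p.1 (a.num : ℚ) = 1 := (padicNorm.int_eq_one_iff a.num).2 hnum
    have h5 : padicNorm p.1 a = (padicNorm p.1 (a.den : ℚ))⁻¹ := by
      conv_lhs => rw [← Rat.num_div_den a]
      rw [padicNorm.div, h3, one_div]
    have hpos : (0 : ℝ) < ((padicNorm p.1 (a.den : ℚ) : ℚ) : ℝ) := by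
      have : (0 : ℚ) < padicNorm p.1 (a.den : ℚ) :=
        lt_of_le_of_ne (padicNorm.nonneg _)
          (Ne.symm (padicNorm.nonzero (Nat.cast_ne_zero.2 a.den_nz)))
      exact_mod_cast this
    rw [h5, Rat.cast_inv, ← Real.log_inv]
    exact log_le_logPlus (inv_pos.2 hpos)
  · have h4 : padicNorm p.1 (a.den : ℚ) = 1 := (padicNorm.nat_eq_one_iff a.den).2 hd
    rw [h4, Rat.cast_one, Real.log_one, neg_zero]
    exact logPlus_nonneg _

/-- `∑ᶠ p, log⁺ |a|_p ≥ log (den a)`. -/
lemma log_den_le_finsum (a : ℚ) (ha : a ≠ 0) :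
    Real.log (a.den : ℝ) ≤ ∑ᶠ p : Nat.Primes, logPlus ((padicNorm p.1 a : ℚ) : ℝ) := by
  have hden : (a.den : ℚ) ≠ 0 := Nat.cast_ne_zero.2 a.den_nz
  have hpf := Abs.rat_product_formula (a.den : ℚ) hden
  have habs : |((a.den : ℚ) : ℝ)| = (a.den : ℝ) := by
    rw [Rat.cast_natCast]
    exact abs_of_nonneg (Nat.cast_nonneg _)
  rw [habs] at hpf
  have h1 : Real.log (a.den : ℝ)
      = ∑ᶠ p : Nat.Primes, -Real.log ((padicNorm p.1 (a.den : ℚ) : ℚ) : ℝ) := by
    rw [finsum_neg_distrib]
    linarith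
  rw [h1]
  have hs1 : (Function.support fun p : Nat.Primes =>
      -Real.log ((padicNorm p.1 (a.den : ℚ) : ℚ) : ℝ)).Finite := by
    have := Abs.finite_support_logPadic hden
    apply this.subset
    intro p hp
    rw [Function.mem_support] at hp ⊢
    intro h0
    apply hp
    show -Real.log ((padicNorm p.1 (a.den : ℚ) : ℚ) : ℝ) = 0
    have : Abs.logPadic p (a.den : ℚ) = Real.log ((padicNorm p.1 (a.den : ℚ) : ℚ) : ℝ) := rfl
    rw [← this, h0, neg_zero]
  exact finsum_le_finsum' hs1 (finite_support_logPlus_padic a ha) (neg_log_den_le a)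

lemma finsum_logPlus_padic_nonneg (a : ℚ) :
    0 ≤ ∑ᶠ p : Nat.Primes, logPlus ((padicNorm p.1 a : ℚ) : ℝ) :=
  finsum_nonneg fun _ => logPlus_nonneg _

/-- the height of `a ≠ 0` bounds the denominator -/
lemma log_den_le_ratHeight (a : ℚ) (ha : a ≠ 0) : Real.log (a.den : ℝ) ≤ ratHeight a := by
  rw [ratHeight_eq a ha]
  have := log_den_le_finsum a ha
  have h0 := logPlus_nonneg |(a : ℝ)|
  linarith

/-- the height of `a ≠ 0` bounds the numerator -/
lemma log_num_le_ratHeight (a : ℚ) (ha : a ≠ 0) :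
    Real.log (a.num.natAbs : ℝ) ≤ ratHeight a := by
  rw [ratHeight_eq a ha]
  have h1 := log_den_le_finsum a ha
  have hapos : (0 : ℝ) < |(a : ℝ)| := abs_pos.2 (Rat.cast_ne_zero.2 ha)
  have h2 := log_le_logPlus hapos
  have hdpos : (0 : ℝ) < (a.den : ℝ) := Nat.cast_pos.2 a.den_pos
  have hnum : ((a.num.natAbs : ℕ) : ℝ) = |(a : ℝ)| * (a.den : ℝ) := by
    have e1 : (a : ℝ) = (a.num : ℝ) / (a.den : ℝ) := by
      have := Rat.cast_def (K := ℝ) a
      exact this
    rw [e1, abs_div, abs_of_pos hdpos, div_mul_cancel₀ _ hdpos.ne']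
    rw [Nat.cast_natAbs]
    push_cast
    rfl
  rw [hnum, Real.log_mul hapos.ne' hdpos.ne']
  linarith

/-- **Northcott on `ℚ`.** -/
theorem ratHeight_northcott (B : ℝ) : {a : ℚ | ratHeight a ≤ B}.Finite := by
  obtain ⟨M, hM⟩ := exists_nat_gt (Real.exp B)
  have hfin : {a : ℚ | a.num.natAbs ≤ M ∧ a.den ≤ M}.Finite := by
    have hinj : Set.InjOn (fun a : ℚ => (a.num, a.den)) {a : ℚ | a.num.natAbs ≤ M ∧ a.den ≤ M} := by
      intro a _ b _ h
      simp only [Prod.mk.injEq] at h
      exact Rat.ext h.1 h.2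
    apply Set.Finite.of_finite_image _ hinj
    have hbox : ({z : ℤ | z.natAbs ≤ M} ×ˢ {n : ℕ | n ≤ M}).Finite := by
      apply Set.Finite.prod
      · have : {z : ℤ | z.natAbs ≤ M} ⊆ Set.Icc (-(M : ℤ)) M := by
          intro z hz
          have hz' : z.natAbs ≤ M := hz
          rw [Set.mem_Icc]
          constructor <;> omega
        exact (Set.finite_Icc _ _).subset this
      · exact Set.finite_le_nat M
    apply hbox.subset
    rintro _ ⟨a, ha, rfl⟩
    exact ⟨ha.1, ha.2⟩
  apply (hfin.union (Set.finite_singleton 0)).subset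
  intro a ha
  by_cases h0 : a = 0
  · exact Or.inr h0
  left
  have hB : ratHeight a ≤ B := ha
  have key : ∀ n : ℕ, 0 < n → Real.log (n : ℝ) ≤ B → n ≤ M := by
    intro n hn hlog
    have h1 : (n : ℝ) ≤ Real.exp B := by
      rw [← Real.exp_log (Nat.cast_pos.2 hn)]
      exact Real.exp_le_exp.2 hlog
    have h2 : (n : ℝ) < M := lt_of_le_of_lt h1 hM
    exact_mod_cast h2.le
  constructor
  · exact key _ (Int.natAbs_pos.2 (Rat.num_ne_zero.2 h0))
      ((log_num_le_ratHeight a h0).trans hB)
  · exact key _ a.den_pos ((log_den_le_ratHeight a h0).trans hB)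

/-! ### The system -/

/-- **Package ABS**: the system of absolute values on `ℚ̄`. -/
def absSys : AbsSys where
  ι := Option Nat.Primes
  abv := absOpt
  arch := {none}
  nonarch := absOpt_nonarch
  finite_ne_one := finite_absOpt_ne_one
  product_formula := absOpt_product_formula
  northcott := ratHeight_northcott

theorem nonempty_absSys : Nonempty AbsSys := ⟨absSys⟩

@[simp] lemma absSys_abv (v : Option Nat.Primes) : absSys.abv v = absOpt v := rfl

end Fermat.Agent.S17
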